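import Fermat.Agent.F3.EigenPadic.Final
import Fermat.Agent.F3.EigenChar.Involution

set_option autoImplicit false
set_option linter.unusedSectionVars false

/-!
# Cluster A (F3): `S30.EigenclassPadic N` from the analytic package `(K1)`  (owner: helper21)

* `heckeInvolutionComm N` : closes the input `HeckeInvolutionComm N` (helper83's
  `heckeHomAll_charInvolution`).
* `kappaFamily_of_all` : the architect's `(K1)` shape (`κ n` for ALL `n`, `d • κ (d n) = κ n`,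
  Hecke-equivariance for `ℓ ∤ N`) gives `KappaFamily N`.
* `eigenclassPadic_of_kappa` : `(K1)` ⟹ `S30.EigenclassPadic N`, UNCONDITIONAL on the period side.
-/

noncomputable section

namespace Fermat.Agent.F3EP

open CongruenceSubgroup ModularCurve ModularCurve.Period Fermat.Agent.F3EC
open scoped TensorProduct

/-- (P1) closed: the coset Hecke operators commute with the Prelude's `charInvolution`. -/
theorem heckeInvolutionComm (N : ℕ) : HeckeInvolutionComm N :=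
  fun _ _ hℓN c => heckeHomAll_charInvolution hℓN c

/-- The period side, unconditional: every character `χ` of the Hecke algebra (away from
`S ⊇ {q ∣ N}`) with values in a domain `O` occurs in `O ⊗ Hom_par(Γ₀(N), ℤ)`. -/
theorem exists_eigenvector_homPar' {N : ℕ} [NeZero N] {S : Set ℕ}
    (hNS : ∀ q : ℕ, q.Prime → q ∣ N → q ∈ S)
    {O : Type*} [CommRing O] [IsDomain O] (χ : CuspForm.heckeAlgebra N 2 S →+* O) :
    ∃ x : O ⊗[ℤ] HomPar N, x ≠ 0 ∧
      ∀ (ℓ : ℕ) (hℓ : ℓ.Prime) (hℓN : ¬ ℓ ∣ N) (hℓS : ℓ ∉ S),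
        (heckeHom N ⟨ℓ, hℓ⟩).baseChange O x = χ (CuspForm.heckeAlgebra.T hℓ hℓN hℓS) • x :=
  exists_eigenvector_homPar (heckeInvolutionComm N) hNS χ

theorem coe_kappa_congr {N : ℕ} [NeZero N]
    (κ : (n : ℕ) → HomPar N →ₗ[ℤ] Fermat.Agent.F3.Jtors N n) {a b : ℕ} (h : a = b)
    (c : HomPar N) : ((κ a c : Fermat.Agent.F3.Jtors N a) : JZero N) = (κ b c : JZero N) := by
  subst h
  rfl

/-- `(K1)` (all `n`) gives the prime-power family. -/
theorem kappaFamily_of_all (N : ℕ) [NeZero N]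
    (κ : (n : ℕ) → HomPar N →ₗ[ℤ] Fermat.Agent.F3.Jtors N n)
    (hker : ∀ n : ℕ, 0 < n → ∀ c : HomPar N, κ n c = 0 → ∃ c' : HomPar N, c = (n : ℤ) • c')
    (hcompat : ∀ (n d : ℕ) (c : HomPar N), 0 < n → 0 < d →
      (d : ℤ) • ((κ (d * n) c : Fermat.Agent.F3.Jtors N (d * n)) : JZero N) = (κ n c : JZero N))
    (hT : ∀ (n : ℕ) (ℓ : Nat.Primes), ¬ (ℓ : ℕ) ∣ N → ∀ c : HomPar N,
      κ n (heckeHom N ℓ c) = Fermat.Agent.F3.heckeTors N n ℓ (κ n c)) :
    KappaFamily N := by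
  intro p hp
  refine ⟨fun n => κ (p ^ n), ?_, ?_, ?_⟩
  · intro n c hc
    obtain ⟨c', hc'⟩ := hker (p ^ n) (pow_pos hp.pos n) c hc
    exact ⟨c', by rw [hc', natCast_zsmul]⟩
  · intro n c
    apply Subtype.ext
    rw [Fermat.Agent.S30.mulPTors_coe, coe_kappa_congr κ (pow_succ' p n) c]
    exact hcompat (p ^ n) p c (pow_pos hp.pos n) hp.pos
  · intro n ℓ hℓ c
    exact hT (p ^ n) ℓ (fun h => hℓ (Dvd.dvd.mul_right h p)) c

/-- **`(K1)` ⟹ `S30.EigenclassPadic N`.** -/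
theorem eigenclassPadic_of_kappa (N : ℕ) [NeZero N]
    (κ : (n : ℕ) → HomPar N →ₗ[ℤ] Fermat.Agent.F3.Jtors N n)
    (hker : ∀ n : ℕ, 0 < n → ∀ c : HomPar N, κ n c = 0 → ∃ c' : HomPar N, c = (n : ℤ) • c')
    (hcompat : ∀ (n d : ℕ) (c : HomPar N), 0 < n → 0 < d →
      (d : ℤ) • ((κ (d * n) c : Fermat.Agent.F3.Jtors N (d * n)) : JZero N) = (κ n c : JZero N))
    (hT : ∀ (n : ℕ) (ℓ : Nat.Primes), ¬ (ℓ : ℕ) ∣ N → ∀ c : HomPar N,
      κ n (heckeHom N ℓ c) = Fermat.Agent.F3.heckeTors N n ℓ (κ n c)) :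
    Fermat.Agent.S30.EigenclassPadic N :=
  eigenclassPadic_of N (heckeInvolutionComm N) (kappaFamily_of_all N κ hker hcompat hT)

end Fermat.Agent.F3EP
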