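import Mathlib
import Fermat.Agent.F3.EigenReduction

set_option autoImplicit false

/-!
# Cluster A (F3), p-adic eigenclass, algebraic core  (owner: helper21)

`exists_eigenvector_of_character`: a commutative ring `T` acting FAITHFULLY on a finite free
`ℤ`-module `M` (through `θ : T →+* End_ℤ M`), and a ring homomorphism `χ : T →+* O` to a domain.
Then `O ⊗ M` contains a nonzero vector `x` with `t x = χ(t) x` for all `t ∈ T`.

Proof: determinant trick on the dual lattice (all `r × r` minors of the stacked system
`(A_t - t)_{t ∈ T}` vanish in `T` because they kill `M`), then linear algebra over `Frac O`.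
No hypothesis on the characteristic.
-/

noncomputable section

open TensorProduct Matrix

namespace Fermat.Agent.F3EP

section Rows

variable {K : Type*} [Field K] {n : Type*} [Fintype n] [DecidableEq n]

/-- If every `n × n` minor of a family of rows in `K ^ n` vanishes, the rows have a common
nonzero orthogonal vector. -/
theorem exists_common_kernel_of_minors {A : Type*} (w : A → n → K)
    (hdet : ∀ f : n → A, (Matrix.of fun k => w (f k)).det = 0) :
    ∃ x : n → K, x ≠ 0 ∧ ∀ α, ∑ k, w α k * x k = 0 := by
  classical
  by_contra hcon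
  push Not at hcon
  have hspan : Submodule.span K (Set.range w) = ⊤ := by
    by_contra hne
    obtain ⟨f, hf0, hle⟩ := Submodule.exists_le_ker_of_lt_top _ (lt_top_iff_ne_top.mpr hne)
    have hfx : ∀ y : n → K, f y = ∑ k, y k * f (Pi.single k 1) := by
      intro y
      conv_lhs => rw [← Finset.univ_sum_single y]
      rw [map_sum]
      refine Finset.sum_congr rfl fun k _ => ?_
      have : (Pi.single k (y k) : n → K) = y k • Pi.single k 1 := by
        rw [← Pi.single_smul, smul_eq_mul, mul_one]
      rw [this, map_smul, smul_eq_mul]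
    have hx0 : (fun k => f (Pi.single k 1)) ≠ 0 := by
      intro h0
      apply hf0
      refine LinearMap.ext fun y => ?_
      rw [hfx y]
      have h0' : ∀ k, f (Pi.single k 1) = 0 := fun k => congrFun h0 k
      simp [h0']
    obtain ⟨α, hα⟩ := hcon _ hx0
    apply hα
    have hmem : w α ∈ LinearMap.ker f := hle (Submodule.subset_span ⟨α, rfl⟩)
    rw [LinearMap.mem_ker, hfx] at hmem
    exact hmem
  obtain ⟨f, hf⟩ := Fermat.Agent.F3Eig.exists_submatrix_det_ne_zero w hspan
  exact hf (hdet f)

end Rows

section DetTrick

variable {T : Type*} [CommRing T] {ι : Type*} [Fintype ι] [DecidableEq ι]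

/-- The universal row `(t, k)`: the `k`-th row of `A_t - t • 1`, with entries in `T`. -/
def univRow (A : T →+* Matrix ι ι ℤ) (α : T × ι) (l : ι) : T :=
  ((A α.1 α.2 l : ℤ) : T) - if α.2 = l then α.1 else 0

/-- The contraction of the rows against the generators of the dual lattice vanishes. -/
theorem sum_map_univRow (A : T →+* Matrix ι ι ℤ) (α : T × ι) (m : ι) :
    ∑ l, A (univRow A α l) l m = 0 := by
  classical
  have h : ∀ l, A (univRow A α l) l m =
      A α.1 α.2 l * (if l = m then 1 else 0) - if α.2 = l then A α.1 l m else 0 := by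
    intro l
    unfold univRow
    rw [map_sub, map_intCast, ← zsmul_one (A α.1 α.2 l), Matrix.sub_apply, Matrix.smul_apply,
      Matrix.one_apply, smul_eq_mul]
    by_cases hl : α.2 = l
    · simp [hl]
    · simp [hl]
  simp only [h, Finset.sum_sub_distrib]
  simp

/-- **Determinant trick**: every `r × r` minor of the universal stacked system vanishes in `T`
when `T` acts faithfully. -/
theorem det_univRow_eq_zero (A : T →+* Matrix ι ι ℤ) (hA : Function.Injective A)
    (f : ι → T × ι) : (Matrix.of fun i => univRow A (f i)).det = 0 := by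
  classical
  set P : Matrix ι ι T := Matrix.of fun i => univRow A (f i) with hP
  apply hA
  rw [map_zero]
  ext k m
  rw [Matrix.zero_apply]
  -- `(adj P * P) k l = det P * δ_{kl}`
  have hadj : ∀ l, ∑ i, P.adjugate k i * P i l = if k = l then P.det else 0 := by
    intro l
    have h := congrFun (congrFun (Matrix.adjugate_mul P) k) l
    rw [Matrix.mul_apply, Matrix.smul_apply, Matrix.one_apply, smul_eq_mul] at h
    rw [h]
    split_ifs <;> simp
  have h1 : A P.det k m = ∑ l, A (∑ i, P.adjugate k i * P i l) l m := by
    simp only [hadj]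
    rw [Finset.sum_eq_single k]
    · simp
    · intro l _ hl
      rw [if_neg (Ne.symm hl), map_zero, Matrix.zero_apply]
    · intro h; exact absurd (Finset.mem_univ k) h
  rw [h1]
  have h2 : ∀ l, A (∑ i, P.adjugate k i * P i l) l m =
      ∑ i, ∑ j, A (P i l) l j * A (P.adjugate k i) j m := by
    intro l
    rw [map_sum, Matrix.sum_apply]
    refine Finset.sum_congr rfl fun i _ => ?_
    rw [mul_comm, map_mul, Matrix.mul_apply]
  simp only [h2]
  rw [Finset.sum_comm]
  refine Finset.sum_eq_zero fun i _ => ?_
  rw [Finset.sum_comm]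
  refine Finset.sum_eq_zero fun j _ => ?_
  rw [← Finset.sum_mul]
  have h3 : ∑ l, A (P i l) l j = 0 := sum_map_univRow A (f i) j
  rw [h3, zero_mul]

/-- Matrix form of the eigenvector theorem. -/
theorem exists_eigenvector_matrix {K : Type*} [Field K] (A : T →+* Matrix ι ι ℤ)
    (hA : Function.Injective A) (χ : T →+* K) :
    ∃ x : ι → K, x ≠ 0 ∧
      ∀ (t : T) (k : ι), ∑ l, (((A t k l : ℤ) : K) - χ t * (if k = l then 1 else 0)) * x l = 0 := by
  classical
  let w : T × ι → ι → K := fun α l => χ (univRow A α l)
  have hw : ∀ (f : ι → T × ι), (Matrix.of fun i => w (f i)).det = 0 := by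
    intro f
    have h := det_univRow_eq_zero A hA f
    have h2 : (Matrix.of fun i => w (f i)) = (Matrix.of fun i => univRow A (f i)).map χ := by
      ext i l; rfl
    rw [h2, ← RingHom.mapMatrix_apply, ← RingHom.map_det, h, map_zero]
  obtain ⟨x, hx0, hx⟩ := exists_common_kernel_of_minors w hw
  refine ⟨x, hx0, fun t k => ?_⟩
  have h := hx (t, k)
  refine Eq.trans (Finset.sum_congr rfl fun l _ => ?_) h
  simp only [w, univRow, map_sub, map_intCast, apply_ite χ, map_zero]
  congr 1
  split_ifs <;> simp

/-- Matrix form of the eigenvector theorem over a domain. -/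
theorem exists_eigenvector_matrix_domain {O : Type*} [CommRing O] [IsDomain O]
    (A : T →+* Matrix ι ι ℤ) (hA : Function.Injective A) (χ : T →+* O) :
    ∃ y : ι → O, y ≠ 0 ∧
      ∀ (t : T) (k : ι), ∑ l, (((A t k l : ℤ) : O) - χ t * (if k = l then 1 else 0)) * y l = 0 := by
  classical
  obtain ⟨x, hx0, hx⟩ := exists_eigenvector_matrix A hA
    ((algebraMap O (FractionRing O)).comp χ)
  obtain ⟨d, hd⟩ := IsLocalization.exist_integer_multiples (nonZeroDivisors O)
    (Finset.univ : Finset ι) x
  have hd0 : (algebraMap O (FractionRing O)) (d : O) ≠ 0 := by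
    intro h
    have := (IsFractionRing.injective O (FractionRing O)) (h.trans (map_zero _).symm)
    exact nonZeroDivisors.ne_zero d.2 this
  choose y hy using fun l => hd l (Finset.mem_univ l)
  refine ⟨y, ?_, fun t k => ?_⟩
  · intro h0
    apply hx0
    ext l
    have h1 := hy l
    rw [h0, Pi.zero_apply, map_zero, Algebra.smul_def] at h1
    rcases mul_eq_zero.mp h1.symm with h2 | h2
    · exact absurd h2 hd0
    · simpa using h2
  · apply IsFractionRing.injective O (FractionRing O)
    rw [map_zero, map_sum]
    have h := hx t k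
    have h2 : ∀ l, algebraMap O (FractionRing O)
        ((((A t k l : ℤ) : O) - χ t * (if k = l then 1 else 0)) * y l) =
        algebraMap O (FractionRing O) (d : O) *
          ((((A t k l : ℤ) : FractionRing O) -
            ((algebraMap O (FractionRing O)).comp χ) t * (if k = l then 1 else 0)) * x l) := by
      intro l
      rw [map_mul, hy l, Algebra.smul_def, map_sub, map_intCast, map_mul, RingHom.comp_apply,
        apply_ite (algebraMap O (FractionRing O)), map_one, map_zero]
      ring
    simp only [h2]
    rw [← Finset.mul_sum, h, mul_zero]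

end DetTrick

section Tensor

variable {T : Type*} [CommRing T]
  {M : Type*} [AddCommGroup M] [Module.Free ℤ M] [Module.Finite ℤ M]

/-- Field form: a character of `T` occurs in `K ⊗ M` for every field `K`. -/
theorem exists_eigenvector_of_character_field (θ : T →+* Module.End ℤ M)
    (hθ : Function.Injective θ) {K : Type*} [Field K] (χ : T →+* K) :
    ∃ x : K ⊗[ℤ] M, x ≠ 0 ∧ ∀ t : T, (θ t).baseChange K x = χ t • x := by
  classical
  set b := Module.Free.chooseBasis ℤ M with hb
  let A : T →+* Matrix (Module.Free.ChooseBasisIndex ℤ M) (Module.Free.ChooseBasisIndex ℤ M) ℤ :=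
    ((LinearMap.toMatrixAlgEquiv b).toAlgHom.toRingHom).comp θ
  have hA : Function.Injective A := by
    intro s t h
    apply hθ
    exact (LinearMap.toMatrixAlgEquiv b).injective h
  have hAt : ∀ t, A t = LinearMap.toMatrix b b (θ t) := fun t => rfl
  obtain ⟨x, hx0, hx⟩ := exists_eigenvector_matrix A hA χ
  refine ⟨(Algebra.TensorProduct.basis K b).repr.symm (Finsupp.equivFunOnFinite.symm x), ?_, ?_⟩
  · intro h0
    apply hx0
    have := congrArg (Algebra.TensorProduct.basis K b).repr h0
    rw [LinearEquiv.apply_symm_apply, map_zero] at this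
    ext l
    simpa using DFunLike.congr_fun this l
  · intro t
    rw [Fermat.Agent.F3Eig.baseChange_eq_smul_iff]
    intro k
    have h := hx t k
    refine Eq.trans (Finset.sum_congr rfl fun l _ => ?_) h
    simp only [LinearEquiv.apply_symm_apply, Finsupp.equivFunOnFinite_symm_apply_apply, hAt, hb]

/-- **Domain form**: a character `χ : T →+* O` of a commutative ring acting faithfully on a finite
free `ℤ`-module `M` occurs in `O ⊗ M`, for every domain `O`. -/
theorem exists_eigenvector_of_character (θ : T →+* Module.End ℤ M)
    (hθ : Function.Injective θ) {O : Type*} [CommRing O] [IsDomain O] (χ : T →+* O) :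
    ∃ x : O ⊗[ℤ] M, x ≠ 0 ∧ ∀ t : T, (θ t).baseChange O x = χ t • x := by
  classical
  set b := Module.Free.chooseBasis ℤ M with hb
  let A : T →+* Matrix (Module.Free.ChooseBasisIndex ℤ M) (Module.Free.ChooseBasisIndex ℤ M) ℤ :=
    ((LinearMap.toMatrixAlgEquiv b).toAlgHom.toRingHom).comp θ
  have hA : Function.Injective A := by
    intro s t h
    apply hθ
    exact (LinearMap.toMatrixAlgEquiv b).injective h
  have hAt : ∀ t, A t = LinearMap.toMatrix b b (θ t) := fun t => rfl
  obtain ⟨x, hx0, hx⟩ := exists_eigenvector_matrix_domain A hA χ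
  refine ⟨(Algebra.TensorProduct.basis O b).repr.symm (Finsupp.equivFunOnFinite.symm x), ?_, ?_⟩
  · intro h0
    apply hx0
    have := congrArg (Algebra.TensorProduct.basis O b).repr h0
    rw [LinearEquiv.apply_symm_apply, map_zero] at this
    ext l
    simpa using DFunLike.congr_fun this l
  · intro t
    rw [Fermat.Agent.F3Eig.baseChange_eq_smul_iff]
    intro k
    have h := hx t k
    refine Eq.trans (Finset.sum_congr rfl fun l _ => ?_) h
    simp only [LinearEquiv.apply_symm_apply, Finsupp.equivFunOnFinite_symm_apply_apply, hAt, hb]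

end Tensor

end Fermat.Agent.F3EP
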