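import Fermat.Agent.S21
import Fermat.Agent.F3.EigenChar.PeriodEigen
import Fermat.Agent.F3.EigenPadic.Algebra
import Fermat.Prelude.Def_CuspForm_HeckeAlgebra

set_option autoImplicit false

/-!
# Cluster A (F3), p-adic eigenclass: the Hecke algebra acts faithfully on `HomPar N`
(owner: helper21)

From the Eichler–Shimura isomorphism `S₂ × S₂ ≃ Hom_par(Γ₀(N), ℂ)` (S21), the Hecke-equivariance of
the period map (helper83, `periodMap_heckeT`), and the lattice `HomPar N` (helper83), we build an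
injective ring homomorphism

  `theta : heckeAlgebra N 2 S →+* Module.End ℤ (HomPar N)`,   `theta (T_ℓ) = heckeHom N ℓ`

(for `S` containing the primes dividing `N`).  Input: `HeckeInvolutionComm N` (the coset Hecke
operator commutes with the Prelude's `charInvolution`).
-/

set_option linter.unusedSectionVars false

noncomputable section

namespace Fermat.Agent.F3EP

open CongruenceSubgroup ModularCurve ModularCurve.Period Fermat.Agent.F3EC
open scoped TensorProduct MatrixGroups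

/-- (P1) The coset Hecke operator on `Hom(Γ₀(N), ℂ)` commutes with the Prelude's involution. -/
def HeckeInvolutionComm (N : ℕ) : Prop :=
  ∀ (ℓ : ℕ) [Fact ℓ.Prime] (hℓN : ¬ ℓ ∣ N) (c : Additive (Gamma0 N) →+ ℂ),
    heckeHomAll hℓN ℂ (charInvolution N ℂ ℂ c) = charInvolution N ℂ ℂ (heckeHomAll hℓN ℂ c)

variable (N : ℕ) [NeZero N]

local notation "S₂" => CuspForm (Gamma0 N) 2

/-- (P2) The Eichler–Shimura map `periodHomPair` is Hecke-equivariant. -/
theorem periodHomPair_hecke (hI : HeckeInvolutionComm N) {ℓ : ℕ} [Fact ℓ.Prime] (hℓ : ℓ.Prime)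
    (hℓN : ¬ ℓ ∣ N) (v : S₂ × S₂) :
    periodHomPair N ((CuspForm.heckeTLin 2 hℓ hℓN).prodMap (CuspForm.heckeTLin 2 hℓ hℓN) v) =
      heckeHomAll hℓN ℂ (periodHomPair N v) := by
  obtain ⟨f, g⟩ := v
  rw [LinearMap.prodMap_apply, Fermat.Agent.S21.periodHomPair_apply,
    Fermat.Agent.S21.periodHomPair_apply, periodMap_heckeT hℓ hℓN, periodMap_heckeT hℓ hℓN,
    map_add, map_add, map_sub, hI ℓ hℓN, hI ℓ hℓN]

/-- The comparison map takes values in the parabolic homomorphisms. -/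
theorem compMap_mem_parabolicHoms (t : ℂ ⊗[ℤ] HomPar N) :
    compMap N t ∈ parabolicHoms ℂ (Gamma0 N) ℂ := by
  induction t using TensorProduct.induction_on with
  | zero => rw [map_zero]; exact Submodule.zero_mem _
  | tmul z c =>
    intro γ hγ
    rw [compMap_tmul]
    have h := c.2 γ hγ
    rw [h]
    simp
  | add x y hx hy => rw [map_add]; exact Submodule.add_mem _ hx hy

theorem range_compMap : LinearMap.range (compMap N) = parabolicHoms ℂ (Gamma0 N) ℂ := by
  apply le_antisymm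
  · rintro _ ⟨t, rfl⟩
    exact compMap_mem_parabolicHoms N t
  · intro c hc
    exact mem_range_compMap N (mem_parabolicHoms_iff.mp hc)

/-- The Eichler–Shimura isomorphism `S₂ × S₂ ≃ ℂ ⊗ Hom_par(Γ₀(N), ℤ)`. -/
def periodEquiv : (S₂ × S₂) ≃ₗ[ℂ] ℂ ⊗[ℤ] HomPar N :=
  (LinearEquiv.ofInjective (periodHomPair N) (Fermat.Agent.S21.result N).1) ≪≫ₗ
    (LinearEquiv.ofEq _ _ ((Fermat.Agent.S21.result N).2.trans (range_compMap N).symm)) ≪≫ₗ
    (LinearEquiv.ofInjective (compMap N) (compMap_injective N)).symm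

theorem compMap_periodEquiv (v : S₂ × S₂) :
    compMap N (periodEquiv N v) = periodHomPair N v := by
  unfold periodEquiv
  simp only [LinearEquiv.trans_apply]
  have h := LinearEquiv.apply_symm_apply (LinearEquiv.ofInjective (compMap N) (compMap_injective N))
    ((LinearEquiv.ofEq _ _ ((Fermat.Agent.S21.result N).2.trans (range_compMap N).symm))
      ((LinearEquiv.ofInjective (periodHomPair N) (Fermat.Agent.S21.result N).1) v))
  have h2 := congrArg Subtype.val h
  rw [LinearEquiv.ofInjective_apply] at h2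
  rw [h2]
  rfl

/-- Transport of endomorphisms of `S₂` to `ℂ ⊗ HomPar N` (diagonal action, conjugated by the
Eichler–Shimura isomorphism). -/
def tauHom : Module.End ℂ S₂ →+* Module.End ℂ (ℂ ⊗[ℤ] HomPar N) :=
  ((periodEquiv N).conjRingEquiv : Module.End ℂ (S₂ × S₂) ≃+* _).toRingHom.comp
    ((LinearMap.prodMapRingHom ℂ S₂ S₂).comp
      (RingHom.prod (RingHom.id (Module.End ℂ S₂)) (RingHom.id (Module.End ℂ S₂))))

theorem tauHom_apply (t : Module.End ℂ S₂) (y : ℂ ⊗[ℤ] HomPar N) :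
    tauHom N t y = periodEquiv N ((t.prodMap t) ((periodEquiv N).symm y)) := rfl

theorem tauHom_injective : Function.Injective (tauHom N) := by
  intro s t h
  refine LinearMap.ext fun f => ?_
  have h1 := congrArg (fun φ => φ (periodEquiv N (f, 0))) h
  simp only [tauHom_apply, LinearEquiv.symm_apply_apply, LinearMap.prodMap_apply] at h1
  have h2 := (periodEquiv N).injective h1
  exact congrArg Prod.fst h2

/-- (P3, generators) `tauHom` sends `T_ℓ` to the base change of the coset Hecke operator. -/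
theorem tauHom_heckeTLin (hI : HeckeInvolutionComm N) {ℓ : ℕ} (hℓ : ℓ.Prime) (hℓN : ¬ ℓ ∣ N) :
    tauHom N (CuspForm.heckeTLin 2 hℓ hℓN) = (heckeHom N ⟨ℓ, hℓ⟩).baseChange ℂ := by
  have : Fact ℓ.Prime := ⟨hℓ⟩
  refine LinearMap.ext fun y => ?_
  apply compMap_injective N
  rw [tauHom_apply, compMap_periodEquiv, periodHomPair_hecke N hI hℓ hℓN,
    ← compMap_periodEquiv, LinearEquiv.apply_symm_apply]
  exact (compMap_heckeHom (N := N) ⟨ℓ, hℓ⟩ hℓN y).symm

/-- base change `End_ℤ (HomPar N) → End_ℂ (ℂ ⊗ HomPar N)` as a ring homomorphism. -/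
def betaHom : Module.End ℤ (HomPar N) →+* Module.End ℂ (ℂ ⊗[ℤ] HomPar N) :=
  (Module.End.baseChangeHom ℤ ℂ (HomPar N)).toRingHom

theorem betaHom_apply (f : Module.End ℤ (HomPar N)) : betaHom N f = f.baseChange ℂ := rfl

theorem betaHom_injective : Function.Injective (betaHom N) := by
  intro f g h
  refine LinearMap.ext fun c => ?_
  have h1 := congrArg (fun φ => compMap N (φ ((1 : ℂ) ⊗ₜ[ℤ] c))) h
  simp only [betaHom_apply, LinearMap.baseChange_tmul] at h1
  apply Subtype.ext
  refine AddMonoidHom.ext fun γ => ?_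
  have h2 := DFunLike.congr_fun h1 γ
  rw [compMap_tmul, compMap_tmul, one_mul, one_mul] at h2
  exact_mod_cast h2

variable {N}

/-- (P3) every element of the Hecke algebra (away from `S ⊇ {q ∣ N}`) preserves the lattice. -/
theorem exists_betaHom_eq_tauHom (hI : HeckeInvolutionComm N) {S : Set ℕ}
    (hNS : ∀ q : ℕ, q.Prime → q ∣ N → q ∈ S) (t : CuspForm.heckeAlgebra N 2 S) :
    ∃ f : Module.End ℤ (HomPar N), betaHom N f = tauHom N (t : Module.End ℂ S₂) := by
  obtain ⟨t, ht⟩ := t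
  show ∃ f : Module.End ℤ (HomPar N), betaHom N f = tauHom N t
  induction ht using Algebra.adjoin_induction with
  | mem x hx =>
    rcases hx with ⟨ℓ, hℓ, hℓN, -, rfl⟩ | ⟨q, hqN, hq, hqS, rfl⟩
    · exact ⟨heckeHom N ⟨ℓ, hℓ⟩, (tauHom_heckeTLin N hI hℓ hℓN).symm⟩
    · exact absurd (hNS q hq hqN) hqS
  | algebraMap r =>
    refine ⟨(r : Module.End ℤ (HomPar N)), ?_⟩
    rw [eq_intCast, map_intCast, map_intCast]
  | add x y _ _ hx hy =>
    obtain ⟨f, hf⟩ := hx
    obtain ⟨g, hg⟩ := hy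
    exact ⟨f + g, by rw [map_add, map_add, hf, hg]⟩
  | mul x y _ _ hx hy =>
    obtain ⟨f, hf⟩ := hx
    obtain ⟨g, hg⟩ := hy
    exact ⟨f * g, by rw [map_mul, map_mul, hf, hg]⟩

/-- (P3) The action of the Hecke algebra on the lattice `HomPar N`. -/
def theta (hI : HeckeInvolutionComm N) {S : Set ℕ}
    (hNS : ∀ q : ℕ, q.Prime → q ∣ N → q ∈ S) :
    CuspForm.heckeAlgebra N 2 S →+* Module.End ℤ (HomPar N) where
  toFun t := (exists_betaHom_eq_tauHom hI hNS t).choose
  map_one' := by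
    apply betaHom_injective N
    rw [(exists_betaHom_eq_tauHom hI hNS 1).choose_spec, map_one]
    exact map_one (tauHom N)
  map_mul' s t := by
    apply betaHom_injective N
    rw [(exists_betaHom_eq_tauHom hI hNS (s * t)).choose_spec, map_mul,
      (exists_betaHom_eq_tauHom hI hNS s).choose_spec,
      (exists_betaHom_eq_tauHom hI hNS t).choose_spec]
    exact map_mul (tauHom N) _ _
  map_zero' := by
    apply betaHom_injective N
    rw [(exists_betaHom_eq_tauHom hI hNS 0).choose_spec, map_zero]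
    exact map_zero (tauHom N)
  map_add' s t := by
    apply betaHom_injective N
    rw [(exists_betaHom_eq_tauHom hI hNS (s + t)).choose_spec, map_add,
      (exists_betaHom_eq_tauHom hI hNS s).choose_spec,
      (exists_betaHom_eq_tauHom hI hNS t).choose_spec]
    exact map_add (tauHom N) _ _

theorem betaHom_theta (hI : HeckeInvolutionComm N) {S : Set ℕ}
    (hNS : ∀ q : ℕ, q.Prime → q ∣ N → q ∈ S) (t : CuspForm.heckeAlgebra N 2 S) :
    betaHom N (theta hI hNS t) = tauHom N (t : Module.End ℂ S₂) :=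
  (exists_betaHom_eq_tauHom hI hNS t).choose_spec

theorem theta_injective (hI : HeckeInvolutionComm N) {S : Set ℕ}
    (hNS : ∀ q : ℕ, q.Prime → q ∣ N → q ∈ S) : Function.Injective (theta hI hNS) := by
  intro s t h
  apply Subtype.ext
  apply tauHom_injective N
  rw [← betaHom_theta hI hNS s, ← betaHom_theta hI hNS t, h]

theorem theta_T (hI : HeckeInvolutionComm N) {S : Set ℕ}
    (hNS : ∀ q : ℕ, q.Prime → q ∣ N → q ∈ S) {ℓ : ℕ} (hℓ : ℓ.Prime) (hℓN : ¬ ℓ ∣ N)
    (hℓS : ℓ ∉ S) :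
    theta hI hNS (CuspForm.heckeAlgebra.T hℓ hℓN hℓS) = heckeHom N ⟨ℓ, hℓ⟩ := by
  apply betaHom_injective N
  rw [betaHom_theta, CuspForm.heckeAlgebra.coe_T, tauHom_heckeTLin N hI hℓ hℓN]
  rfl

/-- **Period side of the `p`-adic eigenclass**: every character `χ` of the Hecke algebra with
values in a domain `O` occurs in `O ⊗ Hom_par(Γ₀(N), ℤ)`. -/
theorem exists_eigenvector_homPar (hI : HeckeInvolutionComm N) {S : Set ℕ}
    (hNS : ∀ q : ℕ, q.Prime → q ∣ N → q ∈ S)
    {O : Type*} [CommRing O] [IsDomain O] (χ : CuspForm.heckeAlgebra N 2 S →+* O) :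
    ∃ x : O ⊗[ℤ] HomPar N, x ≠ 0 ∧
      ∀ (ℓ : ℕ) (hℓ : ℓ.Prime) (hℓN : ¬ ℓ ∣ N) (hℓS : ℓ ∉ S),
        (heckeHom N ⟨ℓ, hℓ⟩).baseChange O x = χ (CuspForm.heckeAlgebra.T hℓ hℓN hℓS) • x := by
  obtain ⟨x, hx0, hx⟩ := exists_eigenvector_of_character (theta hI hNS) (theta_injective hI hNS) χ
  refine ⟨x, hx0, fun ℓ hℓ hℓN hℓS => ?_⟩
  rw [← theta_T hI hNS hℓ hℓN hℓS]
  exact hx _

end Fermat.Agent.F3EP
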