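import Fermat.Agent.F3.EigenPadic.Closed
import Fermat.Agent.F3.I2.Final

/-!
# `S30.EigenclassPadic N`, unconditional (helper21)

`eigenclassPadic N : Fermat.Agent.S30.EigenclassPadic N` from the analytic family
`Fermat.Agent.F3I2.kappaAll N` (helper43 et al.) and `eigenclassPadic_of_kappa`.
-/

set_option autoImplicit false

namespace Fermat.Agent.F3EP

/-- The `p`-adic eigenclass interface of S30, unconditionally. -/
theorem eigenclassPadic (N : ℕ) [NeZero N] : Fermat.Agent.S30.EigenclassPadic N := by
  obtain ⟨κ, hker, hcompat, hT⟩ := Fermat.Agent.F3I2.kappaAll N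
  exact eigenclassPadic_of_kappa N κ hker hcompat hT

end Fermat.Agent.F3EP
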